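import Fermat.Agent.MU.S56.W2.EC.Cyclic.K0.Defs

section MergeWrap_S56_W2_EC_Cyclic_K0_Maschke -- from S56/W2/EC/Cyclic/K0/Maschke.lean

/-!
# S56 / W2-EC / (D) / `K₀` toolkit: the Maschke package, part 1 (helper14)

`Γ` finite of order prime to `p`.

* `msk_exists_section` : an equivariant surjection of finite `𝔽_p[Γ]`-modules has an equivariant
  additive section (averaging);
* `msk_exists_retraction` : an equivariant injection has an equivariant retraction;
* `msk_card_homC_pow` : `#Hom_Γ(A, B)` is a power of `p`, `p ^ pairC A B = #Hom_Γ(A, B)`;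
* `pairC_right_isAdditive_pf` (T1), `pairC_left_isAdditive_pf` (T1').
-/

set_option autoImplicit false
set_option linter.style.haveILetI false
set_option linter.unusedSectionVars false

noncomputable section

namespace Fermat.Agent.S56.EC

variable {p : ℕ} [Fact p.Prime] {Γ : Type} [Group Γ]

/-! ### Cardinalities -/

lemma msk_lin_card {G : Type} [AddCommGroup G] [Module (ZMod p) G] [Finite G] :
    ∃ k : ℕ, Nat.card G = p ^ k :=
  ⟨Module.finrank (ZMod p) G, by
    rw [Module.natCard_eq_pow_finrank (K := ZMod p) (V := G), Nat.card_zmod]⟩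

lemma msk_lin_section {E B : Type} [AddCommGroup E] [AddCommGroup B]
    [Module (ZMod p) E] [Module (ZMod p) B] (q : E →+ B) (hsurj : Function.Surjective q) :
    ∃ s : B →+ E, ∀ b, q (s b) = b := by
  obtain ⟨sL, hsL⟩ := (q.toZModLinearMap p).exists_rightInverse_of_surjective
    (LinearMap.range_eq_top.2 hsurj)
  exact ⟨sL.toAddMonoidHom, fun b => LinearMap.congr_fun hsL b⟩

lemma msk_lin_retraction {A E : Type} [AddCommGroup A] [AddCommGroup E]
    [Module (ZMod p) A] [Module (ZMod p) E] (i : A →+ E) (hinj : Function.Injective i) :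
    ∃ r : E →+ A, ∀ a, r (i a) = a := by
  obtain ⟨rL, hrL⟩ := (i.toZModLinearMap p).exists_leftInverse_of_injective
    (LinearMap.ker_eq_bot.2 hinj)
  exact ⟨rL.toAddMonoidHom, fun a => LinearMap.congr_fun hrL a⟩

/-- A finite abelian group killed by `p` has `p`-power order. -/
lemma msk_card_pow {G : Type} [AddCommGroup G] [Finite G] (h : ∀ x : G, p • x = 0) :
    ∃ k : ℕ, Nat.card G = p ^ k := by
  letI : Module (ZMod p) G := AddCommGroup.zmodModule h
  exact msk_lin_card (p := p)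

lemma msk_homC_killed (A B : FinCMod p Γ) (f : ↥(homC A B)) : p • f = 0 := by
  apply Subtype.ext
  refine AddMonoidHom.ext fun a => ?_
  show p • (f : A.carrier →+ B.carrier) a = 0
  exact B.killed _

/-- `#Hom_Γ(A, B) = p ^ ⟨A, B⟩`. -/
lemma msk_card_homC (A B : FinCMod p Γ) :
    Nat.card ↥(homC A B) = p ^ (Nat.log p (Nat.card ↥(homC A B))) := by
  obtain ⟨k, hk⟩ := msk_card_pow (p := p) (msk_homC_killed A B)
  rw [hk, Nat.log_pow (Fact.out : p.Prime).one_lt]

/-- The order of the middle term of a short exact sequence. -/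
lemma msk_card_exact {H₁ H₂ H₃ : Type} [AddCommGroup H₁] [AddCommGroup H₂] [AddCommGroup H₃]
    (α : H₁ →+ H₂) (β : H₂ →+ H₃) (hα : Function.Injective α) (hβ : Function.Surjective β)
    (hex : ∀ x, β x = 0 ↔ x ∈ α.range) : Nat.card H₂ = Nat.card H₁ * Nat.card H₃ := by
  have h1 : Nat.card H₃ = Nat.card (H₂ ⧸ β.ker) :=
    Nat.card_congr (QuotientAddGroup.quotientKerEquivOfSurjective β hβ).symm.toEquiv
  have h2 : Nat.card H₁ = Nat.card β.ker := by
    have : β.ker = α.range := by
      ext x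
      rw [AddMonoidHom.mem_ker]
      exact hex x
    rw [this]
    exact Nat.card_congr (AddMonoidHom.ofInjective hα).toEquiv
  rw [h1, h2, mul_comm]
  exact AddSubgroup.card_eq_card_quotient_mul_card_addSubgroup β.ker

/-- Additivity of `log_p #` from a short exact sequence of `Hom` groups. -/
lemma msk_pairC_add {A₁ B₁ A₂ B₂ A₃ B₃ : FinCMod p Γ}
    (α : ↥(homC A₁ B₁) →+ ↥(homC A₂ B₂)) (β : ↥(homC A₂ B₂) →+ ↥(homC A₃ B₃))
    (hα : Function.Injective α) (hβ : Function.Surjective β)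
    (hex : ∀ x, β x = 0 ↔ x ∈ α.range) :
    pairC A₂ B₂ = pairC A₁ B₁ + pairC A₃ B₃ := by
  have h := msk_card_exact α β hα hβ hex
  rw [msk_card_homC A₁ B₁, msk_card_homC A₂ B₂, msk_card_homC A₃ B₃, ← pow_add] at h
  have h' := Nat.pow_right_injective (Fact.out : p.Prime).two_le h
  unfold pairC
  rw [h']
  push_cast
  ring

/-! ### Averaging -/

/-- An integer `m` inverting `|Γ|` on the groups killed by `p`. -/
lemma msk_exists_inv [Finite Γ] (hΓ : (Nat.card Γ).Coprime p) :
    ∃ m : ℕ, ∀ (G : Type) [AddCommGroup G], (∀ x : G, p • x = 0) →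
      ∀ x : G, m • (Nat.card Γ • x) = x := by
  obtain ⟨m, -, hm⟩ := Nat.exists_mul_mod_eq_one_of_coprime hΓ (Fact.out : p.Prime).one_lt
  refine ⟨m, fun G _ h x => ?_⟩
  have h1 := Nat.div_add_mod (Nat.card Γ * m) p
  rw [hm] at h1
  rw [← mul_nsmul, ← h1, add_nsmul, one_nsmul, mul_nsmul, h x, nsmul_zero, zero_add]

/-- The average `m • ∑ γ, γ ∘ f ∘ γ⁻¹` of an additive map is equivariant. -/
lemma msk_avg [Finite Γ] (X Y : FinCMod p Γ) (m : ℕ) (f : X.carrier →+ Y.carrier) :
    ∃ g : X.carrier →+ Y.carrier, g ∈ homC X Y ∧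
      ∀ x, g x = m • ∑ᶠ γ : Γ, γ • f (γ⁻¹ • x) := by
  classical
  have : Fintype Γ := Fintype.ofFinite Γ
  let t : X.carrier →+ Y.carrier :=
    { toFun := fun x => m • ∑ γ : Γ, γ • f (γ⁻¹ • x)
      map_zero' := by
        have h0 : ∀ γ : Γ, γ • f (γ⁻¹ • (0 : X.carrier)) = 0 := fun γ => by
          rw [smul_zero, map_zero, smul_zero]
        show m • ∑ γ : Γ, γ • f (γ⁻¹ • (0 : X.carrier)) = 0
        rw [Finset.sum_congr rfl (fun γ _ => h0 γ), Finset.sum_const_zero, nsmul_zero]
      map_add' := fun x y => by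
        have h0 : ∀ γ : Γ, γ • f (γ⁻¹ • (x + y)) = γ • f (γ⁻¹ • x) + γ • f (γ⁻¹ • y) :=
          fun γ => by rw [smul_add, map_add, smul_add]
        show m • ∑ γ : Γ, γ • f (γ⁻¹ • (x + y)) =
          m • ∑ γ : Γ, γ • f (γ⁻¹ • x) + m • ∑ γ : Γ, γ • f (γ⁻¹ • y)
        rw [Finset.sum_congr rfl (fun γ _ => h0 γ), Finset.sum_add_distrib, nsmul_add] }
  have ht : ∀ x, t x = m • ∑ γ : Γ, γ • f (γ⁻¹ • x) := fun x => rfl
  refine ⟨t, fun c x => ?_, fun x => ?_⟩
  · have hsum : ∑ γ : Γ, γ • f (γ⁻¹ • c • x) = ∑ γ : Γ, c • γ • f (γ⁻¹ • x) :=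
      Fintype.sum_equiv (Equiv.mulLeft c⁻¹) (fun γ : Γ => γ • f (γ⁻¹ • c • x))
        (fun γ : Γ => c • γ • f (γ⁻¹ • x)) (fun γ => by
          show γ • f (γ⁻¹ • c • x) = c • (c⁻¹ * γ) • f ((c⁻¹ * γ)⁻¹ • x)
          rw [smul_smul, smul_smul, mul_inv_cancel_left, mul_inv_rev, inv_inv])
    rw [ht, ht, hsum, ← Finset.smul_sum]
    exact (smul_comm c m _).symm
  · rw [ht, finsum_eq_sum_of_fintype]

/-- **Maschke, section form.** -/
theorem msk_exists_section [Finite Γ] (hΓ : (Nat.card Γ).Coprime p) (E B : FinCMod p Γ)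
    (q : E.carrier →+ B.carrier) (hq : ∀ (c : Γ) (e : E.carrier), q (c • e) = c • q e)
    (hsurj : Function.Surjective q) :
    ∃ s : B.carrier →+ E.carrier, s ∈ homC B E ∧ ∀ b, q (s b) = b := by
  classical
  have : Fintype Γ := Fintype.ofFinite Γ
  obtain ⟨sL, hs₀⟩ : ∃ s : B.carrier →+ E.carrier, ∀ b, q (s b) = b := by
    letI : Module (ZMod p) E.carrier := AddCommGroup.zmodModule E.killed
    letI : Module (ZMod p) B.carrier := AddCommGroup.zmodModule B.killed
    exact msk_lin_section (p := p) q hsurj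
  obtain ⟨m, hm⟩ := msk_exists_inv (p := p) hΓ
  obtain ⟨s, hs, hsx⟩ := msk_avg B E m sL
  refine ⟨s, hs, fun b => ?_⟩
  rw [hsx, finsum_eq_sum_of_fintype, map_nsmul, map_sum]
  have h1 : ∀ γ : Γ, q (γ • sL (γ⁻¹ • b)) = b := fun γ => by
    rw [hq, hs₀, smul_inv_smul]
  rw [Finset.sum_congr rfl (fun γ _ => h1 γ), Finset.sum_const, Finset.card_univ,
    ← Nat.card_eq_fintype_card]
  exact hm B.carrier B.killed b

/-- **Maschke, retraction form.** -/
theorem msk_exists_retraction [Finite Γ] (hΓ : (Nat.card Γ).Coprime p) (A E : FinCMod p Γ)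
    (i : A.carrier →+ E.carrier) (hi : ∀ (c : Γ) (a : A.carrier), i (c • a) = c • i a)
    (hinj : Function.Injective i) :
    ∃ r : E.carrier →+ A.carrier, r ∈ homC E A ∧ ∀ a, r (i a) = a := by
  classical
  have : Fintype Γ := Fintype.ofFinite Γ
  obtain ⟨rL, hr₀⟩ : ∃ r : E.carrier →+ A.carrier, ∀ a, r (i a) = a := by
    letI : Module (ZMod p) E.carrier := AddCommGroup.zmodModule E.killed
    letI : Module (ZMod p) A.carrier := AddCommGroup.zmodModule A.killed
    exact msk_lin_retraction (p := p) i hinj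
  obtain ⟨m, hm⟩ := msk_exists_inv (p := p) hΓ
  obtain ⟨r, hr, hrx⟩ := msk_avg E A m rL
  refine ⟨r, hr, fun a => ?_⟩
  rw [hrx, finsum_eq_sum_of_fintype]
  have h1 : ∀ γ : Γ, γ • rL (γ⁻¹ • i a) = a := fun γ => by
    rw [← hi, hr₀, smul_inv_smul]
  rw [Finset.sum_congr rfl (fun γ _ => h1 γ), Finset.sum_const, Finset.card_univ,
    ← Nat.card_eq_fintype_card]
  exact hm A.carrier A.killed a

/-! ### Composition maps between `Hom` groups -/

/-- Post-composition with an equivariant map. -/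
def msk_post (Y : FinCMod p Γ) {A B : FinCMod p Γ} (f : A.carrier →+ B.carrier)
    (hf : f ∈ homC A B) : ↥(homC Y A) →+ ↥(homC Y B) where
  toFun g := ⟨f.comp g.1, fun c y => by
    show f (g.1 (c • y)) = c • f (g.1 y)
    rw [g.2 c y, hf c]⟩
  map_zero' := by
    apply Subtype.ext
    refine AddMonoidHom.ext fun y => ?_
    show f ((0 : Y.carrier →+ A.carrier) y) = 0
    rw [AddMonoidHom.zero_apply, map_zero]
  map_add' g h := by
    apply Subtype.ext
    refine AddMonoidHom.ext fun y => ?_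
    show f ((g.1 + h.1) y) = f (g.1 y) + f (h.1 y)
    rw [AddMonoidHom.add_apply, map_add]

@[simp] lemma msk_post_apply (Y : FinCMod p Γ) {A B : FinCMod p Γ} (f : A.carrier →+ B.carrier)
    (hf : f ∈ homC A B) (g : ↥(homC Y A)) (y : Y.carrier) :
    (msk_post Y f hf g).1 y = f (g.1 y) := rfl

/-- Pre-composition with an equivariant map. -/
def msk_pre (X : FinCMod p Γ) {A B : FinCMod p Γ} (f : A.carrier →+ B.carrier)
    (hf : f ∈ homC A B) : ↥(homC B X) →+ ↥(homC A X) where
  toFun g := ⟨g.1.comp f, fun c a => by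
    show g.1 (f (c • a)) = c • g.1 (f a)
    rw [hf c, g.2 c]⟩
  map_zero' := by
    apply Subtype.ext
    refine AddMonoidHom.ext fun y => ?_
    rfl
  map_add' g h := by
    apply Subtype.ext
    refine AddMonoidHom.ext fun y => ?_
    rfl

@[simp] lemma msk_pre_apply (X : FinCMod p Γ) {A B : FinCMod p Γ} (f : A.carrier →+ B.carrier)
    (hf : f ∈ homC A B) (g : ↥(homC B X)) (a : A.carrier) :
    (msk_pre X f hf g).1 a = g.1 (f a) := rfl

/-! ### T1, T1' -/

/-- **(T1)** `M ↦ ⟨Y, M⟩` is additive. -/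
theorem pairC_right_isAdditive_pf [Finite Γ] (hΓ : (Nat.card Γ).Coprime p) (Y : FinCMod p Γ) :
    IsAdditive (fun M : FinCMod p Γ => pairC Y M) := by
  intro A E B i q hi hq hinj hsurj hex
  show pairC Y E = pairC Y A + pairC Y B
  obtain ⟨s, hs, hqs⟩ := msk_exists_section hΓ E B q hq hsurj
  obtain ⟨r, hr, hri⟩ := msk_exists_retraction hΓ A E i hi hinj
  refine msk_pairC_add (msk_post Y i hi) (msk_post Y q hq) ?_ ?_ ?_
  · intro f g hfg
    apply Subtype.ext
    refine AddMonoidHom.ext fun y => hinj ?_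
    have := congrArg (fun h : ↥(homC Y E) => h.1 y) hfg
    exact this
  · intro h
    refine ⟨msk_post Y s hs h, ?_⟩
    apply Subtype.ext
    refine AddMonoidHom.ext fun y => ?_
    show q (s (h.1 y)) = h.1 y
    exact hqs _
  · intro g
    constructor
    · intro hg
      refine ⟨msk_post Y r hr g, ?_⟩
      apply Subtype.ext
      refine AddMonoidHom.ext fun y => ?_
      show i (r (g.1 y)) = g.1 y
      have h0 : q (g.1 y) = 0 := by
        have := congrArg (fun h : ↥(homC Y B) => h.1 y) hg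
        exact this
      obtain ⟨a, ha⟩ := (hex _).1 h0
      rw [← ha, hri]
    · rintro ⟨f, rfl⟩
      apply Subtype.ext
      refine AddMonoidHom.ext fun y => ?_
      show q (i (f.1 y)) = 0
      exact (hex _).2 ⟨_, rfl⟩

/-- **(T1')** `M ↦ ⟨M, X⟩` is additive. -/
theorem pairC_left_isAdditive_pf [Finite Γ] (hΓ : (Nat.card Γ).Coprime p) (X : FinCMod p Γ) :
    IsAdditive (fun M : FinCMod p Γ => pairC M X) := by
  intro A E B i q hi hq hinj hsurj hex
  show pairC E X = pairC A X + pairC B X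
  obtain ⟨s, hs, hqs⟩ := msk_exists_section hΓ E B q hq hsurj
  obtain ⟨r, hr, hri⟩ := msk_exists_retraction hΓ A E i hi hinj
  rw [add_comm]
  refine msk_pairC_add (msk_pre X q hq) (msk_pre X i hi) ?_ ?_ ?_
  · intro f g hfg
    apply Subtype.ext
    refine AddMonoidHom.ext fun b => ?_
    obtain ⟨e, rfl⟩ := hsurj b
    have := congrArg (fun h : ↥(homC E X) => h.1 e) hfg
    exact this
  · intro h
    refine ⟨msk_pre X r hr h, ?_⟩
    apply Subtype.ext
    refine AddMonoidHom.ext fun a => ?_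
    show h.1 (r (i a)) = h.1 a
    rw [hri]
  · intro g
    constructor
    · intro hg
      refine ⟨msk_pre X s hs g, ?_⟩
      apply Subtype.ext
      refine AddMonoidHom.ext fun e => ?_
      show g.1 (s (q e)) = g.1 e
      have h0 : q (e - s (q e)) = 0 := by
        rw [map_sub, hqs, sub_self]
      obtain ⟨a, ha⟩ := (hex _).1 h0
      have h1 : g.1 (i a) = 0 := by
        have := congrArg (fun h : ↥(homC A X) => h.1 a) hg
        exact this
      rw [ha, map_sub, sub_eq_zero] at h1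
      exact h1.symm
    · rintro ⟨f, rfl⟩
      apply Subtype.ext
      refine AddMonoidHom.ext fun a => ?_
      show f.1 (q (i a)) = 0
      rw [(hex _).2 ⟨_, rfl⟩, map_zero]

end Fermat.Agent.S56.EC
end
end MergeWrap_S56_W2_EC_Cyclic_K0_Maschke

section MergeWrap_S56_W2_EC_Cyclic_K0_Symm -- from S56/W2/EC/Cyclic/K0/Symm.lean

/-!
# S56 / W2-EC / (D) / `K₀` toolkit: the Maschke package, part 2 (helper14): symmetry (T2)

`Γ` finite of order prime to `p`.  `⟨A, B⟩ = ⟨B, A⟩` for finite `𝔽_p[Γ]`-modules.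

* `sym_exists_split` : a proper nonzero stable subgroup `N ≤ A` gives smaller modules `A₁`, `A₂`
  with `d A = d A₁ + d A₂` for every additive `d`;
* `sym_bijective_of_simple` : Schur's lemma;
* `sym_card_eq_of_bijective` : an equivariant bijection `A → B` gives `#Hom_Γ(A,B) = #Hom_Γ(B,A)`;
* `pairC_symm_pf` (T2).
-/

set_option autoImplicit false
set_option linter.style.haveILetI false
set_option linter.unusedSectionVars false

noncomputable section

namespace Fermat.Agent.S56.EC

variable {p : ℕ} [Fact p.Prime] {Γ : Type} [Group Γ]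

/-! ### Splitting along a stable subgroup -/

/-- `N` is stable under `Γ`. -/
def SymStable (A : FinCMod p Γ) (N : AddSubgroup A.carrier) : Prop :=
  ∀ (c : Γ) (a : A.carrier), a ∈ N → c • a ∈ N

/-- `A` has no proper nonzero stable subgroup. -/
def SymSimple (A : FinCMod p Γ) : Prop :=
  ∀ N : AddSubgroup A.carrier, SymStable A N → N = ⊥ ∨ N = ⊤

/-- The subquotient `top / bot` of `A`. -/
def symQ (A : FinCMod p Γ) (bot top : AddSubgroup A.carrier) (hle : bot ≤ top)
    (hb : SymStable A bot) (ht : SymStable A top) : SubQ p Γ A.carrier where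
  bot := bot
  top := top
  le := hle
  stable_bot := hb
  stable_top := ht
  killed := fun x _ => by
    rw [A.killed x]
    exact bot.zero_mem

lemma symStable_bot (A : FinCMod p Γ) : SymStable A ⊥ := fun c a ha => by
  rw [AddSubgroup.mem_bot] at ha ⊢
  rw [ha, smul_zero]

lemma symStable_top (A : FinCMod p Γ) : SymStable A ⊤ := fun _ _ _ => AddSubgroup.mem_top _

lemma sym_p_ne_zero : p ≠ 0 := (Fact.out : p.Prime).ne_zero

/-- `A ≅ top / bot` when `bot = ⊥`, `top = ⊤`. -/
lemma sym_d_whole (A : FinCMod p Γ) (Q : SubQ p Γ A.carrier) (hb : Q.bot = ⊥) (ht : Q.top = ⊤)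
    {d : FinCMod p Γ → ℤ} (hd : IsAdditive d) :
    d A = d (Q.obj sym_p_ne_zero) := by
  have hmem : ∀ a : A.carrier, a ∈ Q.top := fun a => ht ▸ AddSubgroup.mem_top a
  let φ : A.carrier →+ (Q.obj sym_p_ne_zero).carrier :=
    Q.cls.comp
      { toFun := fun a => (⟨a, hmem a⟩ : ↥Q.top)
        map_zero' := rfl
        map_add' := fun _ _ => rfl }
  have hφ : ∀ a : A.carrier, φ a = Q.cls ⟨a, hmem a⟩ := fun a => rfl
  refine hd.eq_of_bijective A (Q.obj sym_p_ne_zero) φ (fun c a => ?_) ⟨?_, ?_⟩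
  · rw [hφ, hφ]
    rfl
  · rw [injective_iff_map_eq_zero]
    intro a ha
    have h1 : (a : A.carrier) ∈ Q.bot := (SubQ.cls_eq_zero_iff Q ⟨a, hmem a⟩).1 ha
    rw [hb] at h1
    exact (AddSubgroup.mem_bot).1 h1
  · intro y
    obtain ⟨x, rfl⟩ := Q.cls_surjective y
    exact ⟨x.1, rfl⟩

/-- The sub-object has smaller order. -/
lemma sym_card_sub_lt (A : FinCMod p Γ) (Q : SubQ p Γ A.carrier) (h1 : Q.top ≠ ⊤) :
    Nat.card (Q.obj sym_p_ne_zero).carrier < Nat.card A.carrier := by
  have h2 : Nat.card (Q.obj sym_p_ne_zero).carrier ≤ Nat.card ↥Q.top :=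
    Nat.card_le_card_of_surjective Q.cls Q.cls_surjective
  have h3 : Nat.card ↥Q.top < Nat.card A.carrier := by
    refine lt_of_le_of_ne (Nat.card_le_card_of_injective _ Subtype.coe_injective) fun h => h1 ?_
    exact (AddSubgroup.card_eq_iff_eq_top Q.top).1 h
  exact lt_of_le_of_lt h2 h3

/-- The quotient object has smaller order. -/
lemma sym_card_quot_lt (A : FinCMod p Γ) (Q : SubQ p Γ A.carrier) (ht : Q.top = ⊤)
    (h0 : Q.bot ≠ ⊥) :
    Nat.card (Q.obj sym_p_ne_zero).carrier < Nat.card A.carrier := by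
  classical
  have hmem : ∀ a : A.carrier, a ∈ Q.top := fun a => ht ▸ AddSubgroup.mem_top a
  let φ : A.carrier → (Q.obj sym_p_ne_zero).carrier := fun a => Q.cls ⟨a, hmem a⟩
  have hsurj : Function.Surjective φ := by
    intro y
    obtain ⟨x, rfl⟩ := Q.cls_surjective y
    exact ⟨x.1, rfl⟩
  have hninj : ¬ Function.Injective φ := by
    intro hinj
    obtain ⟨n, hn, hn0⟩ : ∃ n ∈ Q.bot, n ≠ 0 := by
      by_contra hcon
      apply h0
      rw [AddSubgroup.eq_bot_iff_forall]
      intro x hx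
      by_contra hx0
      exact hcon ⟨x, hx, hx0⟩
    have h1 : φ n = φ 0 := by
      refine (SubQ.cls_eq_cls_iff Q ⟨n, hmem n⟩ ⟨0, hmem 0⟩).2 ?_
      show n - 0 ∈ Q.bot
      rw [sub_zero]
      exact hn
    exact hn0 (hinj h1)
  haveI : Fintype A.carrier := Fintype.ofFinite _
  haveI : Fintype (Q.obj sym_p_ne_zero).carrier := Fintype.ofFinite _
  rw [Nat.card_eq_fintype_card, Nat.card_eq_fintype_card]
  exact Fintype.card_lt_of_surjective_not_injective φ hsurj hninj

/-- **Splitting**: a proper nonzero stable subgroup splits `A` into two smaller modules. -/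
theorem sym_exists_split (A : FinCMod p Γ) (N : AddSubgroup A.carrier) (hN : SymStable A N)
    (h0 : N ≠ ⊥) (h1 : N ≠ ⊤) :
    ∃ A₁ A₂ : FinCMod p Γ, Nat.card A₁.carrier < Nat.card A.carrier ∧
      Nat.card A₂.carrier < Nat.card A.carrier ∧
      ∀ d : FinCMod p Γ → ℤ, IsAdditive d → d A = d A₁ + d A₂ := by
  refine ⟨(symQ A ⊥ N bot_le (symStable_bot A) hN).obj sym_p_ne_zero,
    (symQ A N ⊤ le_top hN (symStable_top A)).obj sym_p_ne_zero,
    sym_card_sub_lt A _ h1, sym_card_quot_lt A _ rfl h0, fun d hd => ?_⟩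
  rw [sym_d_whole A (symQ A ⊥ ⊤ bot_le (symStable_bot A) (symStable_top A)) rfl rfl hd]
  exact hd.subQ_chain sym_p_ne_zero _ _ _ rfl rfl rfl

/-! ### Schur's lemma -/

/-- **Schur**: a nonzero equivariant map between simple modules is bijective. -/
theorem sym_bijective_of_simple {A B : FinCMod p Γ} (hA : SymSimple A) (hB : SymSimple B)
    (f : A.carrier →+ B.carrier) (hf : f ∈ homC A B) (hf0 : f ≠ 0) : Function.Bijective f := by
  have hker : SymStable A f.ker := fun c a ha => by
    rw [AddMonoidHom.mem_ker] at ha ⊢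
    rw [hf c a, ha, smul_zero]
  have hrange : SymStable B f.range := by
    rintro c _ ⟨a, rfl⟩
    exact ⟨c • a, hf c a⟩
  constructor
  · rcases hA f.ker hker with h | h
    · exact (AddMonoidHom.ker_eq_bot_iff f).1 h
    · exfalso
      apply hf0
      refine AddMonoidHom.ext fun a => ?_
      have : a ∈ f.ker := h ▸ AddSubgroup.mem_top a
      exact this
  · rcases hB f.range hrange with h | h
    · exfalso
      apply hf0
      refine AddMonoidHom.ext fun a => ?_
      have : f a ∈ f.range := ⟨a, rfl⟩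
      rw [h, AddSubgroup.mem_bot] at this
      exact this
    · exact AddMonoidHom.range_eq_top.1 h

/-- An equivariant bijection `A → B` gives `#Hom_Γ(A, B) = #Hom_Γ(B, A)`. -/
theorem sym_card_eq_of_bijective {A B : FinCMod p Γ} (f : A.carrier →+ B.carrier)
    (hf : f ∈ homC A B) (hbij : Function.Bijective f) :
    Nat.card ↥(homC A B) = Nat.card ↥(homC B A) := by
  let e : A.carrier ≃+ B.carrier := AddEquiv.ofBijective f hbij
  have he : ∀ a, e a = f a := fun a => rfl
  have hinv : e.symm.toAddMonoidHom ∈ homC B A := by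
    intro c b
    apply e.injective
    show e (e.symm (c • b)) = e (c • e.symm b)
    rw [e.apply_symm_apply, he, hf c, ← he, e.apply_symm_apply]
  -- `Hom(A, B) → Hom(A, A) → Hom(B, A)`
  have h1 : Function.Bijective (msk_post A e.symm.toAddMonoidHom hinv) := by
    rw [Function.bijective_iff_has_inverse]
    refine ⟨msk_post A f hf, fun g => ?_, fun g => ?_⟩
    · apply Subtype.ext
      refine AddMonoidHom.ext fun a => ?_
      show f (e.symm (g.1 a)) = g.1 a
      rw [← he, e.apply_symm_apply]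
    · apply Subtype.ext
      refine AddMonoidHom.ext fun a => ?_
      show e.symm (f (g.1 a)) = g.1 a
      rw [← he, e.symm_apply_apply]
  have h2 : Function.Bijective (msk_pre A e.symm.toAddMonoidHom hinv) := by
    rw [Function.bijective_iff_has_inverse]
    refine ⟨msk_pre A f hf, fun g => ?_, fun g => ?_⟩
    · apply Subtype.ext
      refine AddMonoidHom.ext fun a => ?_
      show g.1 (e.symm (f a)) = g.1 a
      rw [← he, e.symm_apply_apply]
    · apply Subtype.ext
      refine AddMonoidHom.ext fun b => ?_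
      show g.1 (f (e.symm b)) = g.1 b
      rw [← he, e.apply_symm_apply]
  rw [Nat.card_eq_of_bijective _ h1, Nat.card_eq_of_bijective _ h2]

/-- If there is no nonzero equivariant map, `Hom_Γ` has one element. -/
lemma sym_card_eq_one {A B : FinCMod p Γ}
    (h : ∀ f : A.carrier →+ B.carrier, f ∈ homC A B → f = 0) : Nat.card ↥(homC A B) = 1 := by
  haveI : Subsingleton ↥(homC A B) :=
    ⟨fun f g => Subtype.ext ((h f.1 f.2).trans (h g.1 g.2).symm)⟩
  exact Nat.card_of_subsingleton 0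

lemma sym_pairC_eq_of_card {A B A' B' : FinCMod p Γ}
    (h : Nat.card ↥(homC A B) = Nat.card ↥(homC A' B')) : pairC A B = pairC A' B' := by
  unfold pairC
  rw [h]

lemma sym_exists_of_not_simple {A : FinCMod p Γ} (hA : ¬ SymSimple A) :
    ∃ N : AddSubgroup A.carrier, SymStable A N ∧ N ≠ ⊥ ∧ N ≠ ⊤ := by
  by_contra hcon
  apply hA
  intro N hN
  by_contra h
  exact hcon ⟨N, hN, fun h0 => h (Or.inl h0), fun h1 => h (Or.inr h1)⟩

/-! ### T2 -/

/-- **(T2)** symmetry of the multiplicity pairing. -/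
theorem pairC_symm_pf [Finite Γ] (hΓ : (Nat.card Γ).Coprime p) (A B : FinCMod p Γ) :
    pairC A B = pairC B A := by
  classical
  induction' hn : Nat.card A.carrier + Nat.card B.carrier using Nat.strong_induction_on
    with n ih generalizing A B
  by_cases hA : SymSimple A
  · by_cases hB : SymSimple B
    · -- both simple
      by_cases h1 : ∃ f : A.carrier →+ B.carrier, f ∈ homC A B ∧ f ≠ 0
      · obtain ⟨f, hf, hf0⟩ := h1
        exact sym_pairC_eq_of_card
          (sym_card_eq_of_bijective f hf (sym_bijective_of_simple hA hB f hf hf0))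
      · by_cases h2 : ∃ g : B.carrier →+ A.carrier, g ∈ homC B A ∧ g ≠ 0
        · obtain ⟨g, hg, hg0⟩ := h2
          exact (sym_pairC_eq_of_card
            (sym_card_eq_of_bijective g hg (sym_bijective_of_simple hB hA g hg hg0))).symm
        · refine sym_pairC_eq_of_card ?_
          rw [sym_card_eq_one (fun f hf => by_contra fun h => h1 ⟨f, hf, h⟩),
            sym_card_eq_one (fun g hg => by_contra fun h => h2 ⟨g, hg, h⟩)]
    · -- split `B`
      obtain ⟨N, hN, h0, h1⟩ := sym_exists_of_not_simple hB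
      obtain ⟨B₁, B₂, hc1, hc2, hsplit⟩ := sym_exists_split B N hN h0 h1
      have e1 : pairC A B = pairC A B₁ + pairC A B₂ :=
        hsplit _ (pairC_right_isAdditive_pf hΓ A)
      have e2 : pairC B A = pairC B₁ A + pairC B₂ A :=
        hsplit _ (pairC_left_isAdditive_pf hΓ A)
      have i1 := ih (Nat.card A.carrier + Nat.card B₁.carrier) (by omega) A B₁ rfl
      have i2 := ih (Nat.card A.carrier + Nat.card B₂.carrier) (by omega) A B₂ rfl
      rw [e1, e2, i1, i2]
  · -- split `A`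
    obtain ⟨N, hN, h0, h1⟩ := sym_exists_of_not_simple hA
    obtain ⟨A₁, A₂, hc1, hc2, hsplit⟩ := sym_exists_split A N hN h0 h1
    have e1 : pairC A B = pairC A₁ B + pairC A₂ B :=
      hsplit _ (pairC_left_isAdditive_pf hΓ B)
    have e2 : pairC B A = pairC B A₁ + pairC B A₂ :=
      hsplit _ (pairC_right_isAdditive_pf hΓ B)
    have i1 := ih (Nat.card A₁.carrier + Nat.card B.carrier) (by omega) A₁ B rfl
    have i2 := ih (Nat.card A₂.carrier + Nat.card B.carrier) (by omega) A₂ B rfl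
    rw [e1, e2, i1, i2]

end Fermat.Agent.S56.EC
end
end MergeWrap_S56_W2_EC_Cyclic_K0_Symm

section MergeWrap_S56_W2_EC_Cyclic_K0_Dual -- from S56/W2/EC/Cyclic/K0/Dual.lean

set_option autoImplicit false
set_option linter.unusedSectionVars false
set_option linter.style.haveILetI false

noncomputable section

namespace Fermat.Agent.S56.EC

variable {p : ℕ} [Fact p.Prime] {Γ : Type} [Group Γ]

/-! ### (T3) adjunction -/

section Swap

variable (ω : Γ →* (ZMod p)ˣ) (X M : FinCMod p Γ)

/-- The flip `Hom(X, D M) → Hom(M, D X)`. -/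
def dualFlip (f : X.carrier →+ DualMod ω M) : M.carrier →+ DualMod ω X :=
  (DualMod.of ω X : (X.carrier →+ ZMod p) →+ DualMod ω X).comp
    (((DualMod.val ω M : DualMod ω M →+ (M.carrier →+ ZMod p)).comp f).flip)

lemma dualFlip_apply (f : X.carrier →+ DualMod ω M) (m : M.carrier) (x : X.carrier) :
    DualMod.val ω X (dualFlip ω X M f m) x = DualMod.val ω M (f x) m := rfl

lemma dualFlip_mem (f : X.carrier →+ DualMod ω M)
    (hf : ∀ (γ : Γ) (x : X.carrier), f (γ • x) = γ • f x) (γ : Γ) (m : M.carrier) :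
    dualFlip ω X M f (γ • m) = γ • dualFlip ω X M f m := by
  apply DualMod.val_injective
  refine AddMonoidHom.ext fun x => ?_
  rw [dualFlip_apply, DualMod.smul_apply, dualFlip_apply]
  have h1 : f x = γ • f (γ⁻¹ • x) := by
    rw [← hf, smul_inv_smul]
  rw [h1, DualMod.smul_apply, inv_smul_smul]

end Swap

/-- **(T3)** adjunction. -/
theorem pairC_dualObj_swap_pf (ω : Γ →* (ZMod p)ˣ) (X M : FinCMod p Γ) :
    pairC X (dualObj ω M) = pairC M (dualObj ω X) := by
  unfold pairC
  congr 2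
  refine Nat.card_congr
    { toFun := fun f => ⟨dualFlip ω X M f.1, fun γ m => dualFlip_mem ω X M f.1 f.2 γ m⟩
      invFun := fun g => ⟨dualFlip ω M X g.1, fun γ x => dualFlip_mem ω M X g.1 g.2 γ x⟩
      left_inv := fun f => ?_
      right_inv := fun g => ?_ }
  · apply Subtype.ext
    refine AddMonoidHom.ext fun x => ?_
    rfl
  · apply Subtype.ext
    refine AddMonoidHom.ext fun m => ?_
    rfl

/-! ### (T4) `μ_p ≅ D(𝔽_p)` -/

lemma zmod_addHom_apply (φ : ZMod p →+ ZMod p) (m : ZMod p) : φ m = m * φ 1 := by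
  have h1 : m = m.val • (1 : ZMod p) := by
    rw [nsmul_eq_mul, mul_one, ZMod.natCast_zmod_val]
  conv_lhs => rw [h1]
  rw [map_nsmul, nsmul_eq_mul, ZMod.natCast_zmod_val]

/-- `x ↦ (m ↦ x * m)`. -/
def zmodMul : ZMod p →+ (ZMod p →+ ZMod p) := AddMonoidHom.mul

lemma zmodMul_apply (x m : ZMod p) : zmodMul (p := p) x m = x * m := rfl

lemma zmodMul_injective : Function.Injective (zmodMul (p := p)) := by
  intro x y hxy
  have := congrArg (fun φ : ZMod p →+ ZMod p => φ 1) hxy
  simpa [zmodMul_apply] using this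

lemma zmodMul_surjective : Function.Surjective (zmodMul (p := p)) := by
  intro φ
  refine ⟨φ 1, AddMonoidHom.ext fun m => ?_⟩
  rw [zmodMul_apply, mul_comm, ← zmod_addHom_apply]

/-- **(T4)** `μ_p ≅ D(𝔽_p)`. -/
theorem d_muObj_eq_pf (ω : Γ →* (ZMod p)ˣ) {d : FinCMod p Γ → ℤ} (hd : IsAdditive d) :
    d (muObj ω) = d (dualObj ω (trivObj p Γ)) := by
  let Φ : MuMod ω →+ DualMod ω (trivObj p Γ) := zmodMul (p := p)
  have h1 : ∀ (γ : Γ) (x : MuMod ω), Φ (γ • x) = γ • Φ x := by
    intro γ x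
    refine AddMonoidHom.ext fun m => ?_
    show (ω γ : ZMod p) * MuMod.val ω x * TrivMod.val (C := Γ) (R := ZMod p) m =
      (ω γ : ZMod p) * (MuMod.val ω x * TrivMod.val (C := Γ) (R := ZMod p) m)
    rw [mul_assoc]
  have h2 : Function.Injective Φ := zmodMul_injective
  have h3 : Function.Surjective Φ := zmodMul_surjective
  exact hd.eq_of_bijective (muObj ω) (dualObj ω (trivObj p Γ)) Φ h1 ⟨h2, h3⟩

/-! ### (T4) `μ_p[Ω] ≅ D(𝔽_p[Ω])` -/

section PairSum

variable (Ω : Type) [Fintype Ω]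

/-- `g ↦ (f ↦ ∑ x, g x * f x)`. -/
def pairSum : (Ω → ZMod p) →+ ((Ω → ZMod p) →+ ZMod p) where
  toFun g :=
    { toFun := fun f => ∑ x : Ω, g x * f x
      map_zero' := by simp
      map_add' := fun f f' => by simp [mul_add, Finset.sum_add_distrib] }
  map_zero' := by
    refine AddMonoidHom.ext fun f => ?_
    simp
  map_add' g g' := by
    refine AddMonoidHom.ext fun f => ?_
    simp [add_mul, Finset.sum_add_distrib]

variable {Ω}

lemma pairSum_apply (g f : Ω → ZMod p) : pairSum (p := p) Ω g f = ∑ x : Ω, g x * f x := rfl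

lemma pairSum_single [DecidableEq Ω] (g : Ω → ZMod p) (x : Ω) :
    pairSum (p := p) Ω g (Pi.single x 1) = g x := by
  rw [pairSum_apply]
  have : ∀ y : Ω, g y * (Pi.single x (1 : ZMod p) : Ω → ZMod p) y = if y = x then g x else 0 := by
    intro y
    by_cases hyx : y = x
    · subst hyx
      rw [Pi.single_eq_same, mul_one, if_pos rfl]
    · rw [Pi.single_eq_of_ne hyx, mul_zero, if_neg hyx]
  rw [Finset.sum_congr rfl (fun y _ => this y), Finset.sum_ite_eq' Finset.univ x]
  simp

lemma pairSum_injective : Function.Injective (pairSum (p := p) Ω) := by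
  classical
  intro g g' hgg
  funext x
  rw [← pairSum_single g x, ← pairSum_single g' x, hgg]

lemma pairSum_surjective : Function.Surjective (pairSum (p := p) Ω) := by
  classical
  intro φ
  refine ⟨fun x => φ (Pi.single x 1), AddMonoidHom.ext fun f => ?_⟩
  rw [pairSum_apply]
  have hf : f = ∑ x : Ω, ((f x).val : ℕ) • (Pi.single x (1 : ZMod p) : Ω → ZMod p) := by
    funext y
    rw [Finset.sum_apply]
    have h5 : ∀ x : Ω, (((f x).val : ℕ) • (Pi.single x (1 : ZMod p) : Ω → ZMod p)) y =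
        if x = y then f y else 0 := by
      intro x
      show ((f x).val : ℕ) • (Pi.single x (1 : ZMod p) : Ω → ZMod p) y = _
      by_cases hxy : x = y
      · subst hxy
        rw [Pi.single_eq_same, if_pos rfl, nsmul_eq_mul, mul_one, ZMod.natCast_zmod_val]
      · rw [Pi.single_eq_of_ne (Ne.symm hxy), if_neg hxy, smul_zero]
    rw [Finset.sum_congr rfl (fun x _ => h5 x), Finset.sum_ite_eq' Finset.univ y]
    simp
  conv_rhs => rw [hf]
  rw [map_sum]
  refine Finset.sum_congr rfl fun x _ => ?_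
  rw [map_nsmul, nsmul_eq_mul, ZMod.natCast_zmod_val, mul_comm]

lemma pairSum_equivariant (c : ZMod p) (σ τ : Equiv.Perm Ω) (hτ : τ = σ⁻¹) (g f : Ω → ZMod p) :
    pairSum (p := p) Ω (fun x => c * g (σ⁻¹ x)) f =
      c * pairSum (p := p) Ω g (fun x => f (τ⁻¹ x)) := by
  subst hτ
  rw [pairSum_apply, pairSum_apply, Finset.mul_sum]
  refine Fintype.sum_equiv σ⁻¹ _ _ fun x => ?_
  rw [inv_inv]
  have h : σ (σ⁻¹ x) = x := by
    rw [← Equiv.Perm.mul_apply, mul_inv_cancel, Equiv.Perm.one_apply]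
  rw [h, mul_assoc]

end PairSum

/-- **(T4)** `μ_p[Ω] ≅ D(𝔽_p[Ω])`. -/
theorem d_muPermObj_eq_pf (ω : Γ →* (ZMod p)ˣ) {Ω : Type} [Finite Ω] (act : Γ →* Equiv.Perm Ω)
    {d : FinCMod p Γ → ℤ} (hd : IsAdditive d) :
    d (muPermObj ω act) = d (dualObj ω (permObj p act)) := by
  letI := Fintype.ofFinite Ω
  let Φ : MuPermMod ω act →+ DualMod ω (permObj p act) := pairSum (p := p) Ω
  have h1 : ∀ (γ : Γ) (g : MuPermMod ω act), Φ (γ • g) = γ • Φ g := by
    intro γ g
    refine AddMonoidHom.ext fun f => ?_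
    exact pairSum_equivariant (p := p) (ω γ : ZMod p) (act γ) (act γ⁻¹) (map_inv act γ) g f
  have h2 : Function.Injective Φ := pairSum_injective
  have h3 : Function.Surjective Φ := pairSum_surjective
  exact hd.eq_of_bijective (muPermObj ω act) (dualObj ω (permObj p act)) Φ h1 ⟨h2, h3⟩

end Fermat.Agent.S56.EC
end
end MergeWrap_S56_W2_EC_Cyclic_K0_Dual

section MergeWrap_S56_W2_EC_Cyclic_K0_Toolkit -- from S56/W2/EC/Cyclic/K0/Toolkit.lean

set_option autoImplicit false

noncomputable section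

namespace Fermat.Agent.S56.EC

variable {p : ℕ} [Fact p.Prime] {Γ : Type} [Group Γ]

/-- **(T1)** `M ↦ ⟨Y, M⟩` is additive. -/
theorem pairC_right_isAdditive [Finite Γ] (hΓ : (Nat.card Γ).Coprime p) (Y : FinCMod p Γ) :
    IsAdditive (fun M : FinCMod p Γ => pairC Y M) :=
  pairC_right_isAdditive_pf hΓ Y

/-- **(T1')** `M ↦ ⟨M, X⟩` is additive. -/
theorem pairC_left_isAdditive [Finite Γ] (hΓ : (Nat.card Γ).Coprime p) (X : FinCMod p Γ) :
    IsAdditive (fun M : FinCMod p Γ => pairC M X) :=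
  pairC_left_isAdditive_pf hΓ X

/-- **(T2)** symmetry of the multiplicity pairing (`𝔽_p[Γ]` is semisimple). -/
theorem pairC_symm [Finite Γ] (hΓ : (Nat.card Γ).Coprime p) (A B : FinCMod p Γ) :
    pairC A B = pairC B A :=
  pairC_symm_pf hΓ A B

/-- **(T3)** adjunction: `Hom_Γ(X, Hom(M, μ)) = Hom_Γ(M, Hom(X, μ))`. -/
theorem pairC_dualObj_swap (ω : Γ →* (ZMod p)ˣ) (X M : FinCMod p Γ) :
    pairC X (dualObj ω M) = pairC M (dualObj ω X) :=
  pairC_dualObj_swap_pf ω X M

/-- **(T4)** `μ_p ≅ D(𝔽_p)`. -/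
theorem d_muObj_eq (ω : Γ →* (ZMod p)ˣ) {d : FinCMod p Γ → ℤ} (hd : IsAdditive d) :
    d (muObj ω) = d (dualObj ω (trivObj p Γ)) :=
  d_muObj_eq_pf ω hd

/-- **(T4)** `μ_p[Ω] ≅ D(𝔽_p[Ω])`. -/
theorem d_muPermObj_eq (ω : Γ →* (ZMod p)ˣ) {Ω : Type} [Finite Ω] (act : Γ →* Equiv.Perm Ω)
    {d : FinCMod p Γ → ℤ} (hd : IsAdditive d) :
    d (muPermObj ω act) = d (dualObj ω (permObj p act)) :=
  d_muPermObj_eq_pf ω act hd

end Fermat.Agent.S56.EC
end
end MergeWrap_S56_W2_EC_Cyclic_K0_Toolkit
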